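import Mathlib
import Fermat.Agent.LT.T6.H385.QuatSpec
import Fermat.Agent.LT.H129.HenselQuad

/-!
# Row LT, tower T6, sub-leaf T6.18i.1 `HypNonNormC385` (helper122), OFF-MAIN

Near a central non-norm `z` the hyperbolic regular elements of `GL₂(k)` are not norms.

Proof.  Let `γ` be regular with an eigenvalue `t ∈ k`, `γ ∼ N δ = δ σ(δ)`.

* ALGEBRA (`eigen_isNorm122`, any fields, no valuation): `t` is a norm from `k'`.  Let `v ≠ 0` be
  an eigenvector of `A = δ σ(δ)` for `t`, `F x = δ σ(x)`.  Then `F² = A`, `A F = F A` and `F` is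
  `σ`-semilinear, so `F v` is an eigenvector for `σ(t) = t`; the eigenspace is a line (`γ` is
  regular), `F v = c v`, and `t v = A v = F (F v) = σ(c) c v`.
* ESTIMATE: `(t - z)² = t (tr γ - 2 z) - (det γ - z²)`, so `|t - z| < |4 z|` in a small `χ`-ball.
* HENSEL (`H129.hensel_quad129`): `t / z` is a square `x²` in `k`, hence
  `z = t / x² = N (c / x)` is a norm.
-/

set_option autoImplicit false

open scoped Matrix

noncomputable section

namespace Fermat.Agent.LT.T6.H122

open Fermat.Agent.LT.T6 Fermat.Agent.LT.T6.H783 Fermat.Agent.LT.T6.H385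

/-! ## Algebra -/

section Algebra

variable {k k' : Type} [Field k] [Field k']

theorem twNorm_two122 (s : k' ≃+* k') (δ : GL (Fin 2) k') :
    twNorm s 2 δ = δ * glAut s δ := by
  show twN (glAut s) 2 δ = _
  simp [twN]

theorem glAut_coe122 (s : k' ≃+* k') (δ : GL (Fin 2) k') :
    ((glAut s δ : GL (Fin 2) k') : Matrix (Fin 2) (Fin 2) k')
      = (δ : Matrix (Fin 2) (Fin 2) k').map s := rfl

/-- `σ` applied to a matrix-vector product. -/
theorem map_mulVec122 (s : k' ≃+* k') (M : Matrix (Fin 2) (Fin 2) k') (v : Fin 2 → k') :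
    (fun j => s ((M *ᵥ v) j)) = (M.map s) *ᵥ (fun j => s (v j)) := by
  funext j
  have := RingHom.map_mulVec (s : k' →+* k') M v j
  simpa [Function.comp_def] using this

/-- An eigenvalue in `k` of a regular element of `GL₂(k)` which is a norm from `GL₂(k')`
(`k'/k` quadratic) is a norm from `k'`. -/
theorem eigen_isNorm122 (i : k →+* k') (s : k' ≃+* k')
    (hfix : ∀ x : k, s (i x) = i x) (hord : ∀ y : k', s (s y) = y)
    (γ : GL (Fin 2) k) (hreg : disc γ ≠ 0) (t : k)
    (ht : t ^ 2 - (γ : Matrix (Fin 2) (Fin 2) k).trace * t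
      + (γ : Matrix (Fin 2) (Fin 2) k).det = 0)
    (δ : GL (Fin 2) k')
    (hconj : IsConj (twNorm s 2 δ) (Matrix.GeneralLinearGroup.map i γ)) :
    ∃ c : k', i t = c * s c := by
  classical
  set G : Matrix (Fin 2) (Fin 2) k := (γ : Matrix (Fin 2) (Fin 2) k) with hG
  set D : Matrix (Fin 2) (Fin 2) k' := (δ : Matrix (Fin 2) (Fin 2) k') with hD
  -- an eigenvector of `γ`
  have hdet : (G - t • (1 : Matrix (Fin 2) (Fin 2) k)).det = 0 := by
    rw [Matrix.det_fin_two]
    rw [Matrix.trace_fin_two, Matrix.det_fin_two] at ht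
    simp only [Matrix.sub_apply, Matrix.smul_apply, Matrix.one_apply_eq, smul_eq_mul, mul_one,
      Matrix.one_apply_ne, ne_eq, zero_ne_one, one_ne_zero, not_false_eq_true, mul_zero,
      sub_zero]
    linear_combination ht
  obtain ⟨w, hw0, hw⟩ := Matrix.exists_mulVec_eq_zero_iff.mpr hdet
  have hGw : G *ᵥ w = t • w := by
    rw [Matrix.sub_mulVec, Matrix.smul_mulVec, Matrix.one_mulVec, sub_eq_zero] at hw
    exact hw
  -- in `k'`
  set B : Matrix (Fin 2) (Fin 2) k' := G.map i with hB
  have hBcoe : ((Matrix.GeneralLinearGroup.map i γ : GL (Fin 2) k') :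
      Matrix (Fin 2) (Fin 2) k') = B := rfl
  set w' : Fin 2 → k' := fun j => i (w j) with hw'
  have hBw : B *ᵥ w' = i t • w' := by
    funext j
    have h1 := RingHom.map_mulVec i G w j
    have h2 : (fun j => i (w j)) = (i ∘ w) := rfl
    rw [hw', h2, hB, ← h1, hGw]
    simp
  have hw'0 : w' ≠ 0 := by
    intro h
    apply hw0
    funext j
    have := congrFun h j
    exact i.injective (by simpa [hw'] using this)
  -- the conjugating element
  obtain ⟨C, hC⟩ := isConj_iff.mp hconj
  set Cm : Matrix (Fin 2) (Fin 2) k' := (C : Matrix (Fin 2) (Fin 2) k') with hCm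
  set Ci : Matrix (Fin 2) (Fin 2) k' := ((C⁻¹ : GL (Fin 2) k') : Matrix (Fin 2) (Fin 2) k')
    with hCi
  have hCCi : Cm * Ci = 1 := by
    rw [hCm, hCi, ← Matrix.GeneralLinearGroup.coe_mul, mul_inv_cancel]; rfl
  have hCiC : Ci * Cm = 1 := by
    rw [hCm, hCi, ← Matrix.GeneralLinearGroup.coe_mul, inv_mul_cancel]; rfl
  set A : Matrix (Fin 2) (Fin 2) k' := D * D.map s with hA
  have hAcoe : ((twNorm s 2 δ : GL (Fin 2) k') : Matrix (Fin 2) (Fin 2) k') = A := by
    rw [twNorm_two122, Matrix.GeneralLinearGroup.coe_mul, glAut_coe122]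
  have hCAC : Cm * A * Ci = B := by
    have h := congrArg (fun g : GL (Fin 2) k' => (g : Matrix (Fin 2) (Fin 2) k')) hC
    simp only [Matrix.GeneralLinearGroup.coe_mul] at h
    rw [hAcoe, hBcoe] at h
    exact h
  have hA_eq : A = Ci * B * Cm := by
    rw [← hCAC]
    calc A = (Ci * Cm) * A * (Ci * Cm) := by rw [hCiC, Matrix.one_mul, Matrix.mul_one]
      _ = Ci * (Cm * A * Ci) * Cm := by simp only [Matrix.mul_assoc]
  -- the eigenvector of `A`
  set v : Fin 2 → k' := Ci *ᵥ w' with hv
  have hAv : A *ᵥ v = i t • v := by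
    rw [hA_eq, hv, Matrix.mulVec_mulVec, Matrix.mul_assoc, Matrix.mul_assoc, hCCi, Matrix.mul_one,
      ← Matrix.mulVec_mulVec, hBw, Matrix.mulVec_smul]
  have hv0 : v ≠ 0 := by
    intro h
    apply hw'0
    have : Cm *ᵥ v = w' := by
      rw [hv, Matrix.mulVec_mulVec, hCCi, Matrix.one_mulVec]
    rw [← this, h, Matrix.mulVec_zero]
  -- the semilinear map
  set sv : Fin 2 → k' := fun j => s (v j) with hsv
  set Fv : Fin 2 → k' := D *ᵥ sv with hFv
  have hss : (D.map s).map s = D := by
    ext a b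
    simp [Matrix.map_apply, hord]
  have hsAv : (D.map s * D) *ᵥ sv = i t • sv := by
    have h1 := map_mulVec122 s A v
    rw [hAv] at h1
    have h2 : A.map s = D.map s * D := by
      rw [hA, Matrix.map_mul, hss]
    rw [h2] at h1
    rw [← h1]
    funext j
    simp [hsv, hfix]
  have hAFv : A *ᵥ Fv = i t • Fv := by
    rw [hFv, hA, Matrix.mulVec_mulVec, Matrix.mul_assoc, ← Matrix.mulVec_mulVec, hsAv,
      Matrix.mulVec_smul]
  -- `F (F v) = A v`
  have hFF : D *ᵥ (fun j => s (Fv j)) = i t • v := by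
    have h1 := map_mulVec122 s D sv
    have h2 : (fun j => s (sv j)) = v := by
      funext j
      simp [hsv, hord]
    rw [h2] at h1
    rw [h1, Matrix.mulVec_mulVec, ← hAv]
  -- dependence
  have hdep : v 0 * Fv 1 - v 1 * Fv 0 = 0 := by
    by_contra hne
    -- then `A` is scalar
    have hv_a : ∀ a, A a 0 * v 0 + A a 1 * v 1 = i t * v a := by
      intro a
      have := congrFun hAv a
      simpa [Matrix.mulVec, dotProduct, Fin.sum_univ_two] using this
    have hF_a : ∀ a, A a 0 * Fv 0 + A a 1 * Fv 1 = i t * Fv a := by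
      intro a
      have := congrFun hAFv a
      simpa [Matrix.mulVec, dotProduct, Fin.sum_univ_two] using this
    have hA00 : A 0 0 = i t := by
      have h1 := hv_a 0
      have h2 := hF_a 0
      have : (A 0 0 - i t) * (v 0 * Fv 1 - v 1 * Fv 0) = 0 := by
        linear_combination Fv 1 * h1 - v 1 * h2
      rcases mul_eq_zero.mp this with h | h
      · exact sub_eq_zero.mp h
      · exact absurd h hne
    have hA01 : A 0 1 = 0 := by
      have h1 := hv_a 0
      have h2 := hF_a 0
      have : A 0 1 * (v 0 * Fv 1 - v 1 * Fv 0) = 0 := by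
        linear_combination v 0 * h2 - Fv 0 * h1
      rcases mul_eq_zero.mp this with h | h
      · exact h
      · exact absurd h hne
    have hA10 : A 1 0 = 0 := by
      have h1 := hv_a 1
      have h2 := hF_a 1
      have : A 1 0 * (v 0 * Fv 1 - v 1 * Fv 0) = 0 := by
        linear_combination Fv 1 * h1 - v 1 * h2
      rcases mul_eq_zero.mp this with h | h
      · exact h
      · exact absurd h hne
    have hA11 : A 1 1 = i t := by
      have h1 := hv_a 1
      have h2 := hF_a 1
      have : (A 1 1 - i t) * (v 0 * Fv 1 - v 1 * Fv 0) = 0 := by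
        linear_combination v 0 * h2 - Fv 0 * h1
      rcases mul_eq_zero.mp this with h | h
      · exact sub_eq_zero.mp h
      · exact absurd h hne
    have hAsc : A = i t • (1 : Matrix (Fin 2) (Fin 2) k') := by
      ext a b
      fin_cases a <;> fin_cases b <;> simp [hA00, hA01, hA10, hA11]
    have hBsc : B = i t • (1 : Matrix (Fin 2) (Fin 2) k') := by
      rw [← hCAC, hAsc, Matrix.mul_smul, Matrix.mul_one, Matrix.smul_mul, hCCi]
    have hG00 : G 0 0 = t := i.injective (by
      have := congrFun (congrFun hBsc 0) 0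
      simpa [hB] using this)
    have hG11 : G 1 1 = t := i.injective (by
      have := congrFun (congrFun hBsc 1) 1
      simpa [hB] using this)
    have hG01 : G 0 1 = 0 := i.injective (by
      have := congrFun (congrFun hBsc 0) 1
      simpa [hB] using this)
    apply hreg
    show (γ : Matrix (Fin 2) (Fin 2) k).trace ^ 2 - 4 * (γ : Matrix (Fin 2) (Fin 2) k).det = 0
    rw [Matrix.trace_fin_two, Matrix.det_fin_two, ← hG, hG00, hG11, hG01]
    ring
  -- `F v = c v`
  obtain ⟨c, hc⟩ : ∃ c : k', Fv = c • v := by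
    by_cases h0 : v 0 = 0
    · have h1 : v 1 ≠ 0 := by
        intro h1
        apply hv0
        funext j
        fin_cases j
        · exact h0
        · exact h1
      refine ⟨Fv 1 / v 1, ?_⟩
      funext j
      fin_cases j
      · show Fv 0 = Fv 1 / v 1 * v 0
        rw [h0, mul_zero]
        rw [h0, zero_mul, zero_sub, neg_eq_zero] at hdep
        rcases mul_eq_zero.mp hdep with h | h
        · exact absurd h h1
        · exact h
      · show Fv 1 = Fv 1 / v 1 * v 1
        field_simp
    · refine ⟨Fv 0 / v 0, ?_⟩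
      funext j
      fin_cases j
      · show Fv 0 = Fv 0 / v 0 * v 0
        field_simp
      · show Fv 1 = Fv 0 / v 0 * v 1
        field_simp
        linear_combination hdep
  -- conclusion
  have hkey : i t • v = (c * s c) • v := by
    rw [← hFF]
    have h1 : (fun j => s (Fv j)) = s c • sv := by
      funext j
      rw [hc]
      simp [hsv]
    rw [h1, Matrix.mulVec_smul, ← hFv, hc, smul_smul, mul_comm]
  obtain ⟨j, hj⟩ : ∃ j, v j ≠ 0 := by
    by_contra h
    exact hv0 (funext fun j => by_contra fun hj => h ⟨j, hj⟩)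
  have := congrFun hkey j
  simp only [Pi.smul_apply, smul_eq_mul] at this
  exact ⟨c, mul_right_cancel₀ hj this⟩

end Algebra

/-! ## The value group -/

theorem exists_exp_lt122 (g : Γ₀) (hg : g ≠ 0) : ∃ N : ℤ, WithZero.exp (-N) < g := by
  refine ⟨-(WithZero.log g) + 1, ?_⟩
  conv_rhs => rw [← WithZero.exp_log hg]
  rw [WithZero.exp_lt_exp]
  omega

/-! ## The estimate -/

section Main

variable {k : Type} [Field k] [Valued k Γ₀]

/-- If `(t - z)² = t a - b` with `a`, `b` small, then `t - z` is small. -/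
theorem root_near122 (z t a b : k) (r ε : Γ₀) (hr : r ≠ 0)
    (hε1 : ε < r) (hε2 : ε < r ^ 2) (hε3 : ε * Valued.v z < r ^ 2)
    (ha : Valued.v a ≤ ε) (hb : Valued.v b ≤ ε)
    (hw : (t - z) ^ 2 = ((t - z) + z) * a - b) : Valued.v (t - z) < r := by
  by_contra h
  rw [not_lt] at h
  have hw0 : 0 < Valued.v (t - z) := lt_of_lt_of_le (zero_lt_iff.mpr hr) h
  have hsq : r ^ 2 ≤ Valued.v (t - z) ^ 2 := by
    rw [sq, sq]; exact mul_le_mul' h h
  have h1 : Valued.v ((t - z) ^ 2) = Valued.v (t - z) ^ 2 := map_pow _ _ _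
  have h2 : Valued.v (((t - z) + z) * a - b)
      ≤ max (Valued.v (((t - z) + z) * a)) (Valued.v b) := Valuation.map_sub _ _ _
  have h3 : Valued.v (((t - z) + z) * a) ≤ max (Valued.v (t - z)) (Valued.v z) * ε := by
    rw [map_mul]
    exact mul_le_mul' (Valuation.map_add _ _ _) ha
  have key : Valued.v (t - z) ^ 2 ≤ max (max (Valued.v (t - z)) (Valued.v z) * ε) ε := by
    rw [← h1, hw]
    exact h2.trans (max_le_max h3 hb)
  rcases le_max_iff.mp key with h' | h'
  · rcases le_total (Valued.v (t - z)) (Valued.v z) with hle | hle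
    · rw [max_eq_right hle, mul_comm] at h'
      exact absurd (lt_of_lt_of_le hε3 hsq) (not_lt.mpr h')
    · rw [max_eq_left hle] at h'
      have h5 : Valued.v (t - z) * ε < Valued.v (t - z) * Valued.v (t - z) :=
        mul_lt_mul_of_pos_left (lt_of_lt_of_le hε1 h) hw0
      rw [sq] at h'
      exact absurd h5 (not_lt.mpr h')
  · exact absurd (lt_of_lt_of_le hε2 hsq) (not_lt.mpr h')

end Main

/-! ## The leaf -/

/-- **T6.18i.1 `HypNonNormC385`.** -/
theorem hypNonNormC122 : HypNonNormC385 := by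
  intro k k' _ _ _ _ q e i s hQ z hz hnn
  have : CompleteSpace k := hQ.hk.complete
  have : CharZero k := hQ.hk.char0
  have h4 : (4 : k) ≠ 0 := by norm_num
  set r : Γ₀ := Valued.v (4 * z) with hr
  have hr0 : r ≠ 0 := by
    rw [hr]; exact (Valuation.ne_zero_iff _).mpr (mul_ne_zero h4 hz)
  have hvz : Valued.v z ≠ 0 := (Valuation.ne_zero_iff _).mpr hz
  have hg : min r (min (r ^ 2) (r ^ 2 / Valued.v z)) ≠ 0 := by
    have h1 : (0 : Γ₀) < r := zero_lt_iff.mpr hr0
    have h2 : (0 : Γ₀) < r ^ 2 := zero_lt_iff.mpr (pow_ne_zero 2 hr0)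
    have h3 : (0 : Γ₀) < r ^ 2 / Valued.v z :=
      zero_lt_iff.mpr (div_ne_zero (pow_ne_zero 2 hr0) hvz)
    exact (lt_min h1 (lt_min h2 h3)).ne'
  obtain ⟨N, hN⟩ := exists_exp_lt122 _ hg
  refine ⟨N, ?_⟩
  intro γ hreg hball heig hnorm
  obtain ⟨t, ht⟩ := heig
  obtain ⟨δ, hδ⟩ := hnorm
  have hord : ∀ y : k', s (s y) = y := fun y => by
    have := hQ.ext.cyc.order y
    simpa [pow_two] using this
  obtain ⟨c, hc⟩ := eigen_isNorm122 i s hQ.ext.cyc.fix_i hord γ hreg.ne_zero t ht δ hδ
  -- the estimate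
  have hε1 : WithZero.exp (-N) < r := lt_of_lt_of_le hN (min_le_left _ _)
  have hε2 : WithZero.exp (-N) < r ^ 2 :=
    lt_of_lt_of_le hN ((min_le_right _ _).trans (min_le_left _ _))
  have hε3' : WithZero.exp (-N) < r ^ 2 / Valued.v z :=
    lt_of_lt_of_le hN ((min_le_right _ _).trans (min_le_right _ _))
  have hε3 : WithZero.exp (-N) * Valued.v z < r ^ 2 :=
    (lt_div_iff₀ (zero_lt_iff.mpr hvz)).mp hε3'
  have hnear : Valued.v (t - z) < r := by
    refine root_near122 z t ((γ : Matrix (Fin 2) (Fin 2) k).trace - 2 * z)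
      ((γ : Matrix (Fin 2) (Fin 2) k).det - z ^ 2) r _ hr0 hε1 hε2 hε3 hball.1 hball.2 ?_
    linear_combination ht
  -- Hensel: `t / z` is a square
  have hu : Valued.v ((1 : k) ^ 2 - 0 * 1 + -(t / z)) < Valued.v (2 * 1 - 0 : k) ^ 2 := by
    have e1 : (1 : k) ^ 2 - 0 * 1 + -(t / z) = -((t - z) / z) := by
      field_simp
      ring
    have e2 : Valued.v (2 * 1 - 0 : k) ^ 2 = Valued.v (4 : k) := by
      rw [← map_pow]
      congr 1
      norm_num
    rw [e1, e2, Valuation.map_neg, map_div₀, div_lt_iff₀ (zero_lt_iff.mpr hvz), ← map_mul]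
    exact hnear
  obtain ⟨x, hx, -⟩ := Fermat.Agent.LT.H129.hensel_quad129 (0 : k) (-(t / z)) 1 hu
  have hx2 : x ^ 2 = t / z := by linear_combination hx
  have ht0 : t ≠ 0 := by
    rintro rfl
    have hdet : (γ : Matrix (Fin 2) (Fin 2) k).det ≠ 0 := (Matrix.isUnits_det_units γ).ne_zero
    apply hdet
    linear_combination ht
  have hx0 : x ≠ 0 := by
    rintro rfl
    rw [zero_pow two_ne_zero] at hx2
    exact div_ne_zero ht0 hz hx2.symm
  -- `z` is a norm: contradiction
  apply hnn
  refine ⟨c / i x, ?_⟩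
  have hz_eq : z = t / x ^ 2 := by
    rw [hx2]
    field_simp
  have hix : i x ≠ 0 := (map_ne_zero i).mpr hx0
  have hprod : ∏ j ∈ Finset.range 2, (s ^ j) (c / i x) = (c / i x) * s (c / i x) := by
    rw [Finset.prod_range_succ, Finset.prod_range_succ, Finset.prod_range_zero]
    simp
  rw [hprod, map_div₀, hQ.ext.cyc.fix_i]
  conv_lhs => rw [hz_eq]
  rw [map_div₀, map_pow, hc]
  field_simp

end Fermat.Agent.LT.T6.H122

end
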